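import Fermat.Agent.S22Lib.Poly
import Fermat.Prelude.Thm_ModularForm_sturm_bound_Gamma0
import Fermat.Prelude.Thm_Subgroup_IsArithmetic_exists_nat_mem_strictPeriods_conj

set_option autoImplicit false

noncomputable section

namespace Fermat.Agent.S22Lib.Sep

open Fermat.Agent.S22Lib
open UpperHalfPlane hiding I
open Filter Topology Complex Function
open scoped Real MatrixGroups ModularForm Pointwise
open CongruenceSubgroup Matrix.SpecialLinearGroup

variable {N : ℕ} {m : ℕ}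

theorem cc_isPoly_x (f : CuspForm (Gamma0 N) ((m : ℤ) + 2)) (γ : SL(2, ℤ)) (τ : ℍ) (y : ℂ) :
    IsPoly (fun x => cc f γ τ x y) := by
  simp only [cc, mv_apply, HH]
  exact (HP_isPoly _ _ _ _ (((IsPoly.const _).mul IsPoly.id).add (IsPoly.const _))
    (((IsPoly.const _).mul IsPoly.id).add (IsPoly.const _))).sub
    (HP_isPoly _ _ _ _ IsPoly.id (IsPoly.const y))

theorem cc_isPoly_y (f : CuspForm (Gamma0 N) ((m : ℤ) + 2)) (γ : SL(2, ℤ)) (τ : ℍ) (x : ℂ) :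
    IsPoly (fun y => cc f γ τ x y) := by
  simp only [cc, mv_apply, HH]
  exact (HP_isPoly _ _ _ _ ((IsPoly.const _).add ((IsPoly.const _).mul IsPoly.id))
    ((IsPoly.const _).add ((IsPoly.const _).mul IsPoly.id))).sub
    (HP_isPoly _ _ _ _ (IsPoly.const x) IsPoly.id)

/-- If all lattice functionals vanish on `f`, the cocycle vanishes identically. -/
theorem cc_eq_zero [NeZero N] (f : CuspForm (Gamma0 N) ((m : ℤ) + 2))
    (h : ∀ lam ∈ Lam N m, lam f = 0) {γ : SL(2, ℤ)} (hγ : γ ∈ Gamma0 N) (τ : ℍ) (x y : ℂ) :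
    cc f γ τ x y = 0 := by
  rw [cc_indep f hγ τ UpperHalfPlane.I]
  have h0 : ∀ x y : ℤ, cc f γ UpperHalfPlane.I x y = 0 := fun x y =>
    h _ (cfun_mem_Lam hγ x y)
  have h1 : ∀ (y : ℤ) (x : ℂ), cc f γ UpperHalfPlane.I x y = 0 := fun y x =>
    (cc_isPoly_x f γ _ y).eq_zero_of_int (fun n => h0 n y) x
  exact (cc_isPoly_y f γ _ x).eq_zero_of_int (fun n => h1 n x) y

/-- The Eichler integral of `f`. -/
def EE (f : CuspForm (Gamma0 N) ((m : ℤ) + 2)) : ℍ → ℂ := itI 1 (⇑f) (m + 1)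

theorem slash_neg_apply (E : ℍ → ℂ) (k : ℤ) (γ : SL(2, ℤ)) (τ : ℍ) :
    (E ∣[k] (mapGL ℝ γ : GL (Fin 2) ℝ)) τ =
      E ((mapGL ℝ γ : GL (Fin 2) ℝ) • τ) * denom (mapGL ℝ γ : GL (Fin 2) ℝ) τ ^ (-k) := by
  have hdet : (mapGL ℝ γ : GL (Fin 2) ℝ).det = 1 := Matrix.SpecialLinearGroup.det_mapGL γ
  rw [ModularForm.slash_apply, σ, hdet]
  simp

theorem mv_diag (φ : ℍ → ℂ) (h : ℝ) (δ : SL(2, ℤ)) (τ : ℍ) :
    mv (mapGL ℝ δ) (HP h φ m) τ τ 1 = (m.factorial : ℂ) *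
      (itI h φ (m + 1) ((mapGL ℝ δ : GL (Fin 2) ℝ) • τ) *
        denom (mapGL ℝ δ : GL (Fin 2) ℝ) τ ^ m) := by
  set g : GL (Fin 2) ℝ := mapGL ℝ δ with hg
  have hdet : 0 < g.det.val := by
    rw [Matrix.GeneralLinearGroup.val_det_apply]
    exact det_mapGL_pos δ
  have hd : denom g τ ≠ 0 := denom_ne_zero g τ
  have hcoe : ((g • τ : ℍ) : ℂ) = num g τ / denom g τ := coe_smul_of_det_pos hdet τ
  have h1 : (g 0 0 : ℂ) * (τ : ℂ) + (g 0 1 : ℂ) * 1 = denom g τ * ((g • τ : ℍ) : ℂ) := by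
    rw [hcoe]
    field_simp
    simp [num]
  have h2 : (g 1 0 : ℂ) * (τ : ℂ) + (g 1 1 : ℂ) * 1 = denom g τ * 1 := by
    simp [denom]
  rw [mv_apply, h1, h2, HP_homog, HP_diag]
  ring

theorem EE_slash [NeZero N] (f : CuspForm (Gamma0 N) ((m : ℤ) + 2))
    (h : ∀ lam ∈ Lam N m, lam f = 0) {γ : SL(2, ℤ)} (hγ : γ ∈ Gamma0 N) :
    EE f ∣[-(m : ℤ)] (mapGL ℝ γ : GL (Fin 2) ℝ) = EE f := by
  funext τ
  rw [slash_neg_apply, neg_neg, zpow_natCast]
  have h1 := cc_eq_zero f h hγ τ τ 1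
  unfold cc at h1
  rw [HH, mv_diag, HP_diag] at h1
  have hm : (m.factorial : ℂ) ≠ 0 := by exact_mod_cast m.factorial_ne_zero
  exact mul_left_cancel₀ hm (sub_eq_zero.mp h1)

/-- The Eichler integral as a slash invariant form of weight `-m`. -/
def EEsif [NeZero N] (f : CuspForm (Gamma0 N) ((m : ℤ) + 2)) (h : ∀ lam ∈ Lam N m, lam f = 0) :
    SlashInvariantForm (Gamma0 N : Subgroup (GL (Fin 2) ℝ)) (-(m : ℤ)) where
  toFun := EE f
  slash_action_eq' := by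
    rintro γ ⟨g, hg, rfl⟩
    exact EE_slash f h hg

theorem exists_period (N : ℕ) [NeZero N] : ∃ M : ℕ, 0 < M ∧ ∀ δ : SL(2, ℤ),
    (M : ℝ) ∈ (ConjAct.toConjAct (mapGL ℝ δ : GL (Fin 2) ℝ)⁻¹ •
      (Gamma0 N : Subgroup (GL (Fin 2) ℝ))).strictPeriods := by
  obtain ⟨M, hM, h⟩ := Subgroup.IsArithmetic.exists_nat_mem_strictPeriods_conj
    (Gamma0 N : Subgroup (GL (Fin 2) ℝ))
  refine ⟨M, hM, fun δ => ?_⟩
  have := h δ⁻¹
  simpa using this

theorem cp_translate [NeZero N] {k : ℤ} (f : CuspForm (Gamma0 N) k) (δ : SL(2, ℤ)) {M : ℕ}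
    (hper : (M : ℝ) ∈ (ConjAct.toConjAct (mapGL ℝ δ : GL (Fin 2) ℝ)⁻¹ •
      (Gamma0 N : Subgroup (GL (Fin 2) ℝ))).strictPeriods) :
    CP M (⇑f ∣[k] (mapGL ℝ δ : GL (Fin 2) ℝ)) where
  per := by
    exact SlashInvariantFormClass.periodic_comp_ofComplex
      (SlashInvariantForm.translate f (mapGL ℝ δ : GL (Fin 2) ℝ)) hper
  hol := (CuspFormClass.holo f).slash k _
  zero := CuspFormClass.zero_at_infty_slash f δ

theorem EE_bdd [NeZero N] (f : CuspForm (Gamma0 N) ((m : ℤ) + 2))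
    (h : ∀ lam ∈ Lam N m, lam f = 0) (δ : SL(2, ℤ)) :
    IsBoundedAtImInfty (EE f ∣[-(m : ℤ)] (mapGL ℝ δ : GL (Fin 2) ℝ)) := by
  obtain ⟨M, hM, hper⟩ := exists_period N
  have hM' : (0 : ℝ) < M := by exact_mod_cast hM
  set g : GL (Fin 2) ℝ := mapGL ℝ δ with hg
  set fδ : ℍ → ℂ := ⇑f ∣[(m : ℤ) + 2] g with hfδ
  have hcp : CP M fδ := cp_translate f δ (hper δ)
  set Hδ := HP M fδ m with hHδ
  have hP1 : PrimOf fδ m Hδ := primOf_HP hM' hcp m
  have hP2 : PrimOf fδ m (mv g (HH f)) := (primOf_HH f).mv (det_mapGL_pos δ)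
  set Eδ := itI M fδ (m + 1) with hEδ
  have hEδcp : CP M Eδ := itI_cp hM' hcp (m + 1)
  set Q : ℂ → ℂ := fun t => mv g (HH f) UpperHalfPlane.I t 1 - Hδ UpperHalfPlane.I t 1 with hQ
  have hQpoly : IsPoly Q := by
    simp only [hQ, mv_apply, HH, hHδ]
    exact (HP_isPoly _ _ _ _ (((IsPoly.const _).mul IsPoly.id).add (IsPoly.const _))
      (((IsPoly.const _).mul IsPoly.id).add (IsPoly.const _))).sub
      (HP_isPoly _ _ _ _ IsPoly.id (IsPoly.const 1))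
  have hm : (m.factorial : ℂ) ≠ 0 := by exact_mod_cast m.factorial_ne_zero
  have hkey : ∀ τ : ℍ, (m.factorial : ℂ) * (EE f ∣[-(m : ℤ)] g) τ =
      (m.factorial : ℂ) * Eδ τ + Q τ := by
    intro τ
    rw [slash_neg_apply, neg_neg, zpow_natCast]
    have h1 := mv_diag (m := m) (⇑f) 1 δ τ
    have h2 := hP2.const_diff hP1 (τ : ℂ) 1 τ UpperHalfPlane.I
    have h3 : Hδ τ τ 1 = (m.factorial : ℂ) * Eδ τ := HP_diag _ _ _ _
    have h4 : mv g (HH f) τ τ 1 = (m.factorial : ℂ) * (EE f (g • τ) * denom g τ ^ m) := h1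
    rw [← h4, hQ]
    simp only
    rw [← h2, h3]
    ring
  have hslash_per : Periodic ((EE f ∣[-(m : ℤ)] g) ∘ ofComplex) ((M : ℝ) : ℂ) := by
    exact SlashInvariantFormClass.periodic_comp_ofComplex
      (SlashInvariantForm.translate (EEsif f h) g) (hper δ)
  have hQper : ∀ z : ℂ, 0 < z.im → Q (z + (M : ℝ)) = Q z := by
    intro z hz
    have hz' : 0 < (z + (M : ℝ)).im := by simpa using hz
    have e1 := hkey ⟨z, hz⟩
    have e2 := hkey ⟨z + (M : ℝ), hz'⟩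
    have p1 := hslash_per z
    have p2 := hEδcp.per z
    rw [comp_apply, comp_apply, ofComplex_apply_of_im_pos hz, ofComplex_apply_of_im_pos hz'] at p1 p2
    rw [p1, p2] at e2
    have e1' : Q z = (m.factorial : ℂ) * (EE f ∣[-(m : ℤ)] g) ⟨z, hz⟩ -
        (m.factorial : ℂ) * Eδ ⟨z, hz⟩ := by
      rw [e1]; ring
    have e2' : Q (z + (M : ℝ)) = (m.factorial : ℂ) * (EE f ∣[-(m : ℤ)] g) ⟨z, hz⟩ -
        (m.factorial : ℂ) * Eδ ⟨z, hz⟩ := by
      rw [e2]; ring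
    rw [e1', e2']
  have hconst := hQpoly.const_of_periodic hM'.ne' hQper
  have hfin : (EE f ∣[-(m : ℤ)] g) = fun τ => Eδ τ + (m.factorial : ℂ)⁻¹ * Q I := by
    funext τ
    have := hkey τ
    rw [hconst (τ : ℂ)] at this
    field_simp
    linear_combination this
  rw [hfin]
  exact hEδcp.zero.isBoundedAtImInfty.add (Filter.const_boundedAtFilter _ _)

/-- The Eichler integral as a modular form of weight `-m`. -/
def EEmf [NeZero N] (f : CuspForm (Gamma0 N) ((m : ℤ) + 2)) (h : ∀ lam ∈ Lam N m, lam f = 0) :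
    ModularForm (Gamma0 N : Subgroup (GL (Fin 2) ℝ)) (-(m : ℤ)) where
  toSlashInvariantForm := EEsif f h
  holo' := (itI_cp one_pos (cp_cusp f) (m + 1)).hol
  bdd_at_cusps' := by
    intro c hc
    have hc' : IsCusp c 𝒮ℒ := (Subgroup.IsArithmetic.isCusp_iff_isCusp_SL2Z _).mp hc
    rw [OnePoint.isBoundedAt_iff_forall_SL2Z hc']
    intro δ _
    exact EE_bdd f h δ

theorem EE_eq_zero [NeZero N] (f : CuspForm (Gamma0 N) ((m : ℤ) + 2))
    (h : ∀ lam ∈ Lam N m, lam f = 0) : EE f = 0 := by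
  have hz : EEmf f h = 0 := by
    apply ModularForm.sturm_bound_Gamma0 N
    intro n hn
    have h0 : ((-(m : ℤ)) * ((Gamma0 N).index : ℤ)).toNat = 0 := by
      apply Int.toNat_of_nonpos
      exact mul_nonpos_of_nonpos_of_nonneg (neg_nonpos.mpr (Int.natCast_nonneg m))
        (Int.natCast_nonneg _)
    rw [h0] at hn
    have hn0 : n = 0 := by simpa using hn
    subst hn0
    rw [qExpansion_coeff]
    simp only [Nat.factorial_zero, Nat.cast_one, inv_one, iteratedDeriv_zero, one_mul]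
    exact (itI_cp one_pos (cp_cusp f) (m + 1)).zero.cuspFunction_apply_zero one_pos
  have := congrArg (fun F : ModularForm (Gamma0 N : Subgroup (GL (Fin 2) ℝ)) (-(m : ℤ)) =>
    (⇑F : ℍ → ℂ)) hz
  exact this

theorem itI_zero_down {h : ℝ} (hh : 0 < h) {φ : ℍ → ℂ} (hφ : CP h φ) (n : ℕ)
    (hn : itI h φ (n + 1) = 0) : itI h φ n = 0 := by
  funext τ
  have h1 := itI_deriv hh hφ n τ
  rw [hn] at h1
  have h2 : HasDerivAt ((0 : ℍ → ℂ) ∘ ofComplex) 0 (τ : ℂ) :=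
    hasDerivAt_const (τ : ℂ) (0 : ℂ)
  exact h1.unique h2

/-- The lattice of period functionals separates points. -/
theorem Lam_sep [NeZero N] (f : CuspForm (Gamma0 N) ((m : ℤ) + 2))
    (h : ∀ lam ∈ Lam N m, lam f = 0) : f = 0 := by
  have hE : itI 1 (⇑f) (m + 1) = 0 := EE_eq_zero f h
  have hall : ∀ j, j ≤ m + 1 → itI 1 (⇑f) (m + 1 - j) = 0 := by
    intro j
    induction j with
    | zero => intro _; exact hE
    | succ j ih =>
      intro hj
      have h1 := ih (by omega)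
      apply itI_zero_down one_pos (cp_cusp f)
      rw [show m + 1 - (j + 1) + 1 = m + 1 - j by omega]
      exact h1
  have h0 := hall (m + 1) le_rfl
  rw [Nat.sub_self, itI_zero] at h0
  exact DFunLike.coe_injective h0

end Fermat.Agent.S22Lib.Sep
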