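import Fermat.Agent.S22Lib.Defs

set_option autoImplicit false

noncomputable section

namespace Fermat.Agent.S22Lib.Hecke

open Fermat.Agent.S22Lib
open UpperHalfPlane hiding I
open Filter Topology Complex Function
open scoped Real MatrixGroups ModularForm
open CongruenceSubgroup Matrix.SpecialLinearGroup

variable {N : ℕ} {m : ℕ}

theorem det_pos_of_upper {g : GL (Fin 2) ℝ} (h10 : g 1 0 = 0) (h00 : 0 < g 0 0)
    (h11 : 0 < g 1 1) : 0 < g.val.det := by
  rw [Matrix.det_fin_two, h10]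
  simp only [mul_zero, sub_zero]
  exact mul_pos h00 h11

/-- The primitive of `T f` when `T f = ∑ f ∣ α i` with upper triangular `α i`. -/
theorem HH_of_sum [NeZero N] {ι : Type*} [Fintype ι] (α : ι → GL (Fin 2) ℝ)
    (h10 : ∀ i, (α i) 1 0 = 0) (h00 : ∀ i, 0 < (α i) 0 0) (h11 : ∀ i, 0 < (α i) 1 1)
    (f Tf : CuspForm (Gamma0 N) ((m : ℤ) + 2))
    (hT : ⇑Tf = ∑ i, (⇑f) ∣[(m : ℤ) + 2] α i) :
    HH Tf = fun τ x y => ∑ i, mv (α i) (HH f) τ x y := by
  refine PrimOf.eq_of_vv (f := ⇑Tf) (m := m) (primOf_HH Tf) ?_ (HH_vv Tf) ?_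
  · rw [hT]
    exact PrimOf.sum Finset.univ fun i _ =>
      (primOf_HH f).mv (det_pos_of_upper (h10 i) (h00 i) (h11 i))
  · intro x y
    exact VV.sum Finset.univ fun i _ => VV.mv (HH_vv f) (h10 i) (h00 i) (h11 i) x y

/-- Abstract Hecke stability of the period lattice. -/
theorem Lam_stab [NeZero N] {ι : Type*} [Fintype ι] (α : ι → GL (Fin 2) ℝ)
    (h10 : ∀ i, (α i) 1 0 = 0) (h00 : ∀ i, 0 < (α i) 0 0) (h11 : ∀ i, 0 < (α i) 1 1)
    (hint : ∀ i a b, ∃ n : ℤ, ((α i) a b : ℝ) = n)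
    (hcoset : ∀ γ : SL(2, ℤ), γ ∈ Gamma0 N → ∃ σ : Equiv.Perm ι, ∀ i, ∃ γ' : SL(2, ℤ),
      γ' ∈ Gamma0 N ∧ α i * mapGL ℝ γ = mapGL ℝ γ' * α (σ i))
    (T : CuspForm (Gamma0 N) ((m : ℤ) + 2) → CuspForm (Gamma0 N) ((m : ℤ) + 2))
    (hT : ∀ f, ⇑(T f) = ∑ i, (⇑f) ∣[(m : ℤ) + 2] α i)
    {lam : CuspForm (Gamma0 N) ((m : ℤ) + 2) → ℂ} (hlam : lam ∈ Lam N m) :
    (fun f => lam (T f)) ∈ Lam N m := by
  classical
  unfold Lam at hlam
  induction hlam using Submodule.span_induction with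
  | mem lam hx =>
    obtain ⟨γ, hγ, x, y, rfl⟩ := hx
    obtain ⟨σ, hσ⟩ := hcoset γ hγ
    choose γ' hγ'mem hγ'eq using hσ
    choose A hA using hint
    have key : (fun f => cfun N m γ x y (T f)) =
        ∑ i, cfun N m (γ' i) (A (σ i) 0 0 * x + A (σ i) 0 1 * y)
          (A (σ i) 1 0 * x + A (σ i) 1 1 * y) := by
      funext f
      rw [Finset.sum_apply]
      simp only [cfun_apply]
      have hH := HH_of_sum α h10 h00 h11 f (T f) (hT f)
      -- left hand side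
      have e1 : cc (T f) γ UpperHalfPlane.I x y =
          ∑ i, (mv (α i * mapGL ℝ γ) (HH f) UpperHalfPlane.I x y
            - mv (α (σ i)) (HH f) UpperHalfPlane.I x y) := by
        rw [Finset.sum_sub_distrib, Equiv.sum_comp σ (fun i => mv (α i) (HH f) UpperHalfPlane.I x y)]
        unfold cc
        rw [hH]
        simp only [mv_mul]
        rfl
      rw [e1]
      refine Finset.sum_congr rfl fun i _ => ?_
      rw [hγ'eq i, mv_mul]
      rw [← cc_indep f (hγ'mem i) (α (σ i) • UpperHalfPlane.I) UpperHalfPlane.I]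
      simp only [cc, mv_apply]
      have hc : ∀ a b, (((α (σ i)) a b : ℝ) : ℂ) = ((A (σ i) a b : ℤ) : ℂ) := by
        intro a b
        rw [hA (σ i) a b]
        simp
      simp only [hc]
      push_cast
      ring
    rw [key]
    exact Submodule.sum_mem _ fun i _ => cfun_mem_Lam (hγ'mem i) _ _
  | zero => exact Submodule.zero_mem _
  | add a b _ _ ha hb => exact Submodule.add_mem _ ha hb
  | smul r a _ ha => exact Submodule.smul_mem _ r ha

theorem heckeMatrix_entries {p : ℕ} (hp : p ≠ 0) (j : ℕ) (a b : Fin 2) :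
    ∃ n : ℤ, ((ModularForm.heckeMatrix p j : GL (Fin 2) ℝ) a b : ℝ) = n := by
  rw [ModularForm.val_heckeMatrix hp]
  fin_cases a <;> fin_cases b
  · exact ⟨1, by simp⟩
  · exact ⟨j, by simp⟩
  · exact ⟨0, by simp⟩
  · exact ⟨p, by simp⟩

theorem heckeDiagMatrix_entries {p : ℕ} (hp : p ≠ 0) (a b : Fin 2) :
    ∃ n : ℤ, ((ModularForm.heckeDiagMatrix p : GL (Fin 2) ℝ) a b : ℝ) = n := by
  rw [ModularForm.val_heckeDiagMatrix hp]
  fin_cases a <;> fin_cases b
  · exact ⟨p, by simp⟩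
  · exact ⟨0, by simp⟩
  · exact ⟨0, by simp⟩
  · exact ⟨1, by simp⟩

open P2MW.S_ModularForm_heckeT_slash_eq_self_of_mem_Gamma0.ModularForm.HeckeSlashInvariance in
/-- The period lattice is stable under `T_ℓ`. -/
theorem Lam_heckeT [NeZero N] {ℓ : ℕ} (hℓ : ℓ.Prime) (hℓN : ¬ ℓ ∣ N)
    {lam : CuspForm (Gamma0 N) ((m : ℤ) + 2) → ℂ} (hlam : lam ∈ Lam N m) :
    (fun f => lam (CuspForm.heckeTLin ((m : ℤ) + 2) hℓ hℓN f)) ∈ Lam N m := by
  haveI : Fact ℓ.Prime := ⟨hℓ⟩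
  haveI : NeZero ℓ := ⟨hℓ.ne_zero⟩
  have hℓ0 : ℓ ≠ 0 := hℓ.ne_zero
  have hℓpos : (0 : ℝ) < ℓ := by exact_mod_cast hℓ.pos
  refine Lam_stab (ι := OnePoint (ZMod ℓ)) (heckeRep ℓ) ?_ ?_ ?_ ?_ ?_
    (fun f => CuspForm.heckeTLin _ hℓ hℓN f) ?_ hlam
  · intro x
    induction x using OnePoint.rec with
    | infty => simp [heckeRep, ModularForm.val_heckeDiagMatrix hℓ0]
    | coe j => simp [heckeRep, ModularForm.val_heckeMatrix hℓ0]
  · intro x
    induction x using OnePoint.rec with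
    | infty => simpa [heckeRep, ModularForm.val_heckeDiagMatrix hℓ0] using hℓpos
    | coe j => simp [heckeRep, ModularForm.val_heckeMatrix hℓ0]
  · intro x
    induction x using OnePoint.rec with
    | infty => simp [heckeRep, ModularForm.val_heckeDiagMatrix hℓ0]
    | coe j => simpa [heckeRep, ModularForm.val_heckeMatrix hℓ0] using hℓpos
  · intro x a b
    induction x using OnePoint.rec with
    | infty => exact heckeDiagMatrix_entries hℓ0 a b
    | coe j => exact heckeMatrix_entries hℓ0 j.val a b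
  · intro γ hγ
    have hcN : (N : ℤ) ∣ γ 1 0 :=
      (ZMod.intCast_zmod_eq_zero_iff_dvd _ _).mp (Gamma0_mem.mp hγ)
    refine ⟨MulAction.toPerm (redMatrix ℓ γ), fun x => ?_⟩
    obtain ⟨g', hg', hmul⟩ := heckeRep_mul hℓN γ hcN x
    exact ⟨g', Gamma0_mem.mpr ((ZMod.intCast_zmod_eq_zero_iff_dvd _ _).mpr hg'), hmul⟩
  · intro f
    rw [CuspForm.coe_heckeTLin_apply, heckeT_eq_sum_onePoint]

open P2MW.S_ModularForm_heckeT_slash_eq_self_of_mem_Gamma0.ModularForm.HeckeSlashInvariance in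
/-- The period lattice is stable under `U_q`. -/
theorem Lam_heckeU [NeZero N] {q : ℕ} (hqN : q ∣ N)
    {lam : CuspForm (Gamma0 N) ((m : ℤ) + 2) → ℂ} (hlam : lam ∈ Lam N m) :
    (fun f => lam (CuspForm.heckeULin ((m : ℤ) + 2) hqN f)) ∈ Lam N m := by
  have hq0 : q ≠ 0 := by
    rintro rfl
    exact NeZero.ne N (zero_dvd_iff.mp hqN)
  haveI : NeZero q := ⟨hq0⟩
  have hqpos : (0 : ℝ) < q := by exact_mod_cast Nat.pos_of_ne_zero hq0
  refine Lam_stab (ι := ZMod q) (fun x => ModularForm.heckeMatrix q x.val) ?_ ?_ ?_ ?_ ?_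
    (fun f => CuspForm.heckeULin _ hqN f) ?_ hlam
  · intro x
    simp [ModularForm.val_heckeMatrix hq0]
  · intro x
    simp [ModularForm.val_heckeMatrix hq0]
  · intro x
    simpa [ModularForm.val_heckeMatrix hq0] using hqpos
  · intro x a b
    exact heckeMatrix_entries hq0 x.val a b
  · intro γ hγ
    have hcN : (N : ℤ) ∣ γ 1 0 :=
      (ZMod.intCast_zmod_eq_zero_iff_dvd _ _).mp (Gamma0_mem.mp hγ)
    have hc : (q : ℤ) ∣ γ 1 0 := (Int.natCast_dvd_natCast.mpr hqN).trans hcN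
    refine ⟨affinePerm γ ((ZMod.intCast_zmod_eq_zero_iff_dvd _ _).mpr hc), fun x => ?_⟩
    obtain ⟨g', hg', hmul⟩ := heckeMatrix_mul_of_dvd γ hc x
    refine ⟨g', ?_, hmul⟩
    rw [Gamma0_mem, hg']
    push_cast
    rw [Gamma0_mem.mp hγ, mul_zero]
  · intro f
    rw [CuspForm.coe_heckeULin_apply, heckeU_eq_sum_zmod]

end Fermat.Agent.S22Lib.Hecke
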