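import Fermat.Agent.S22Lib.Defs
import Mathlib.GroupTheory.Schreier
import Mathlib.LinearAlgebra.Matrix.FixedDetMatrices
import Mathlib.RingTheory.Noetherian.Basic

set_option autoImplicit false

noncomputable section

namespace Fermat.Agent.S22Lib.Fg

open UpperHalfPlane hiding I
open Filter Topology Complex Function Asymptotics
open scoped Real MatrixGroups ModularForm
open CongruenceSubgroup Matrix.SpecialLinearGroup
open Fermat.Agent.S22Lib

variable {N : ℕ} {m : ℕ}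

/-- Basic functionals at the point `τ`. -/
def bas (N m : ℕ) (τ : ℍ) (j l : ℕ) : CuspForm (Gamma0 N) ((m : ℤ) + 2) → ℂ :=
  fun f => (τ : ℂ) ^ j * itI 1 (⇑f) (l + 1) τ

/-- The finite set of basic functionals at `τ`. -/
def Bset (N m : ℕ) (τ : ℍ) : Set (CuspForm (Gamma0 N) ((m : ℤ) + 2) → ℂ) :=
  (fun p : ℕ × ℕ => bas N m τ p.1 p.2) '' {p : ℕ × ℕ | p.1 ≤ m ∧ p.2 ≤ m}

theorem Bset_finite (N m : ℕ) (τ : ℍ) : (Bset N m τ).Finite := by
  refine Set.Finite.image _ ?_
  refine Set.Finite.subset ((Finset.range (m + 1) ×ˢ Finset.range (m + 1)).finite_toSet) ?_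
  rintro ⟨a, b⟩ ⟨ha, hb⟩
  simp only [Finset.coe_product, Finset.coe_range, Set.mem_prod, Set.mem_Iio]
  exact ⟨Nat.lt_succ_of_le ha, Nat.lt_succ_of_le hb⟩

theorem pow_term_mem (τ : ℍ) (x y : ℤ) {l : ℕ} (hl : l ≤ m) :
    ∀ (n j : ℕ), j + n ≤ m →
      (fun f : CuspForm (Gamma0 N) ((m : ℤ) + 2) =>
        (τ : ℂ) ^ j * ((x : ℂ) - (τ : ℂ) * (y : ℂ)) ^ n * itI 1 (⇑f) (l + 1) τ)
        ∈ Submodule.span ℤ (Bset N m τ) := by
  intro n
  induction n with
  | zero =>
    intro j hj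
    have : (fun f : CuspForm (Gamma0 N) ((m : ℤ) + 2) =>
        (τ : ℂ) ^ j * ((x : ℂ) - (τ : ℂ) * (y : ℂ)) ^ 0 * itI 1 (⇑f) (l + 1) τ)
          = bas N m τ j l := by
      funext f; simp [bas]
    rw [this]
    exact Submodule.subset_span ⟨(j, l), ⟨by omega, hl⟩, rfl⟩
  | succ n ih =>
    intro j hj
    have h1 := ih j (by omega)
    have h2 := ih (j + 1) (by omega)
    have : (fun f : CuspForm (Gamma0 N) ((m : ℤ) + 2) =>
        (τ : ℂ) ^ j * ((x : ℂ) - (τ : ℂ) * (y : ℂ)) ^ (n + 1) * itI 1 (⇑f) (l + 1) τ) =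
        x • (fun f : CuspForm (Gamma0 N) ((m : ℤ) + 2) =>
          (τ : ℂ) ^ j * ((x : ℂ) - (τ : ℂ) * (y : ℂ)) ^ n * itI 1 (⇑f) (l + 1) τ)
        - y • (fun f : CuspForm (Gamma0 N) ((m : ℤ) + 2) =>
          (τ : ℂ) ^ (j + 1) * ((x : ℂ) - (τ : ℂ) * (y : ℂ)) ^ n * itI 1 (⇑f) (l + 1) τ) := by
      funext f
      simp only [Pi.sub_apply, Pi.smul_apply]
      simp only [zsmul_eq_mul]
      ring
    rw [this]
    exact Submodule.sub_mem _ (Submodule.smul_mem _ _ h1) (Submodule.smul_mem _ _ h2)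

theorem HH_mem (τ : ℍ) (x y : ℤ) :
    (fun f : CuspForm (Gamma0 N) ((m : ℤ) + 2) => HH f τ (x : ℂ) (y : ℂ))
      ∈ Submodule.span ℤ (Bset N m τ) := by
  have : (fun f : CuspForm (Gamma0 N) ((m : ℤ) + 2) => HH f τ (x : ℂ) (y : ℂ)) =
      ∑ l ∈ Finset.range (m + 1), ((m.descFactorial l : ℤ) * y ^ l) •
        (fun f : CuspForm (Gamma0 N) ((m : ℤ) + 2) =>
          (τ : ℂ) ^ 0 * ((x : ℂ) - (τ : ℂ) * (y : ℂ)) ^ (m - l) * itI 1 (⇑f) (l + 1) τ) := by
    funext f
    simp only [HH, HP, Finset.sum_apply, Pi.smul_apply]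
    refine Finset.sum_congr rfl fun l _ => ?_
    simp only [zsmul_eq_mul]
    push_cast
    ring
  rw [this]
  refine Submodule.sum_mem _ fun l hl => Submodule.smul_mem _ _ ?_
  have hl' : l ≤ m := Nat.lt_succ_iff.mp (Finset.mem_range.mp hl)
  exact pow_term_mem τ x y hl' (m - l) 0 (by omega)

theorem cfun_mem (γ : SL(2, ℤ)) (x y : ℤ) :
    cfun N m γ x y ∈ Submodule.span ℤ
      (Bset N m UpperHalfPlane.I ∪
        Bset N m ((mapGL ℝ γ : GL (Fin 2) ℝ) • UpperHalfPlane.I)) := by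
  have h1 := HH_mem (N := N) (m := m) ((mapGL ℝ γ : GL (Fin 2) ℝ) • UpperHalfPlane.I)
    (γ 0 0 * x + γ 0 1 * y) (γ 1 0 * x + γ 1 1 * y)
  have h2 := HH_mem (N := N) (m := m) UpperHalfPlane.I x y
  have : cfun N m γ x y =
      (fun f : CuspForm (Gamma0 N) ((m : ℤ) + 2) =>
        HH f ((mapGL ℝ γ : GL (Fin 2) ℝ) • UpperHalfPlane.I)
          ((γ 0 0 * x + γ 0 1 * y : ℤ) : ℂ) ((γ 1 0 * x + γ 1 1 * y : ℤ) : ℂ))
      - (fun f : CuspForm (Gamma0 N) ((m : ℤ) + 2) => HH f UpperHalfPlane.I (x : ℂ) (y : ℂ)) := by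
    funext f
    simp only [cfun, cc, mv_apply, mapGL_apply', Pi.sub_apply]
    push_cast
    rfl
  rw [this]
  exact Submodule.sub_mem _ (Submodule.span_mono Set.subset_union_right h1)
    (Submodule.span_mono Set.subset_union_left h2)

theorem Lam_fg (N m : ℕ) [NeZero N] : (Lam N m).FG := by
  have : Group.FG SL(2, ℤ) :=
    Group.fg_iff.mpr ⟨{ModularGroup.S, ModularGroup.T},
      _root_.SpecialLinearGroup.SL2Z_generators, by simp⟩
  have hfg : (Gamma0 N).FG := (Group.fg_iff_subgroup_fg _).mp inferInstance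
  obtain ⟨S, hS, hSfin⟩ := (Subgroup.fg_iff _).mp hfg
  set W : Submodule ℤ (CuspForm (Gamma0 N) ((m : ℤ) + 2) → ℂ) :=
    Submodule.span ℤ (Bset N m UpperHalfPlane.I ∪
      ⋃ g ∈ S, Bset N m ((mapGL ℝ g : GL (Fin 2) ℝ) • UpperHalfPlane.I)) with hW
  have hWfg : W.FG := by
    apply Submodule.fg_span
    exact (Bset_finite _ _ _).union (hSfin.biUnion fun g _ => Bset_finite _ _ _)
  have key : ∀ γ ∈ Subgroup.closure S, ∀ x y : ℤ, cfun N m γ x y ∈ W := by
    intro γ hγ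
    induction hγ using Subgroup.closure_induction with
    | mem g hg =>
      intro x y
      refine Submodule.span_mono ?_ (cfun_mem g x y)
      apply Set.union_subset
      · exact Set.subset_union_left
      · exact Set.subset_union_of_subset_right
          (Set.subset_biUnion_of_mem (u := fun g : SL(2, ℤ) =>
            Bset N m ((mapGL ℝ g : GL (Fin 2) ℝ) • UpperHalfPlane.I)) hg) _
    | one =>
      intro x y
      have : cfun N m 1 x y = 0 := by
        funext f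
        simp [cfun, cc_one]
      rw [this]
      exact W.zero_mem
    | mul a b ha hb iha ihb =>
      intro x y
      have hmem : a ∈ Gamma0 N := hS ▸ ha
      have : cfun N m (a * b) x y =
          cfun N m a (b 0 0 * x + b 0 1 * y) (b 1 0 * x + b 1 1 * y) + cfun N m b x y := by
        funext f
        simp only [cfun, Pi.add_apply]
        rw [cc_mul f hmem]
        push_cast
        rfl
      rw [this]
      exact W.add_mem (iha _ _) (ihb _ _)
    | inv a ha iha =>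
      intro x y
      have hmem : a ∈ Gamma0 N := hS ▸ ha
      have : cfun N m a⁻¹ x y =
          - cfun N m a (a⁻¹ 0 0 * x + a⁻¹ 0 1 * y) (a⁻¹ 1 0 * x + a⁻¹ 1 1 * y) := by
        funext f
        have h := cc_mul f hmem (δ := a⁻¹) UpperHalfPlane.I x y
        rw [mul_inv_cancel, cc_one] at h
        simp only [cfun, Pi.neg_apply]
        push_cast
        linear_combination -h
      rw [this]
      exact W.neg_mem (iha _ _)
  have hle : Lam N m ≤ W := by
    refine Submodule.span_le.mpr ?_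
    rintro lam ⟨γ, hγ, x, y, rfl⟩
    exact key γ (hS ▸ hγ) x y
  exact Submodule.FG.of_le hWfg hle

end Fermat.Agent.S22Lib.Fg
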