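import Fermat.Agent.S22Lib.Defs
import Fermat.Prelude.Thm_ModularForm_sturm_bound_Gamma0

set_option autoImplicit false

noncomputable section

namespace Fermat.Agent.S22Lib.Fin

open Fermat.Agent.S22Lib
open UpperHalfPlane hiding I
open Filter Topology Complex Function
open scoped Real MatrixGroups ModularForm
open CongruenceSubgroup Matrix.SpecialLinearGroup

variable {N : ℕ} {m : ℕ}

theorem HH_add [NeZero N] (f g : CuspForm (Gamma0 N) ((m : ℤ) + 2)) :
    HH (f + g) = fun τ x y => HH f τ x y + HH g τ x y := by
  refine PrimOf.eq_of_vv (f := ⇑(f + g)) (m := m) (primOf_HH (f + g)) ?_ (HH_vv (f + g)) ?_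
  · intro x y τ
    have := ((primOf_HH f) x y τ).add ((primOf_HH g) x y τ)
    refine this.congr_deriv ?_
    simp [add_mul]
  · intro x y
    exact (HH_vv f x y).add (HH_vv g x y)

theorem cc_add [NeZero N] (f g : CuspForm (Gamma0 N) ((m : ℤ) + 2)) (γ : SL(2, ℤ)) (τ : ℍ)
    (x y : ℂ) : cc (f + g) γ τ x y = cc f γ τ x y + cc g γ τ x y := by
  simp only [cc, mv_apply, HH_add]
  ring

/-- Elements of the period lattice are additive. -/
theorem Lam_add [NeZero N] {lam : CuspForm (Gamma0 N) ((m : ℤ) + 2) → ℂ} (hlam : lam ∈ Lam N m)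
    (f g : CuspForm (Gamma0 N) ((m : ℤ) + 2)) : lam (f + g) = lam f + lam g := by
  unfold Lam at hlam
  induction hlam using Submodule.span_induction with
  | mem x hx =>
    obtain ⟨γ, -, a, b, rfl⟩ := hx
    simp only [cfun_apply]
    exact cc_add f g γ _ _ _
  | zero => simp
  | add a b _ _ ha hb =>
    simp only [Pi.add_apply, ha, hb]
    ring
  | smul r a _ ha =>
    simp only [Pi.smul_apply, ha, smul_add]

/-- Abstract finiteness criterion: a finitely generated lattice of additive functionals, stable
under the Hecke generators and separating points, forces the Hecke algebra to be finite. -/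
theorem finite_of_lattice {N : ℕ} [NeZero N] {k : ℤ} (S : Set ℕ)
    (L : Submodule ℤ (CuspForm (Gamma0 N) k → ℂ)) (hfg : L.FG)
    (hadd : ∀ lam ∈ L, ∀ f g, lam (f + g) = lam f + lam g)
    (hT : ∀ lam ∈ L, ∀ T ∈ CuspForm.heckeGenerators N k S, (fun f => lam (T f)) ∈ L)
    (hsep : ∀ f, (∀ lam ∈ L, lam f = 0) → f = 0) :
    Module.Finite ℤ (CuspForm.heckeAlgebra N k S) := by
  classical
  -- additive functionals are ℤ-linear
  have hzsmul : ∀ lam ∈ L, ∀ (r : ℤ) (f : CuspForm (Gamma0 N) k), lam (r • f) = r • lam f := by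
    intro lam hlam r f
    exact map_zsmul (AddMonoidHom.mk' lam (hadd lam hlam)) r f
  have hzero : ∀ lam ∈ L, lam 0 = 0 := by
    intro lam hlam
    exact map_zero (AddMonoidHom.mk' lam (hadd lam hlam))
  -- stability under the whole Hecke algebra
  have hstab : ∀ T ∈ CuspForm.heckeAlgebra N k S, ∀ lam ∈ L, (fun f => lam (T f)) ∈ L := by
    intro T hTmem
    unfold CuspForm.heckeAlgebra at hTmem
    induction hTmem using Algebra.adjoin_induction with
    | mem T hTgen => exact fun lam hlam => hT lam hlam T hTgen
    | algebraMap r =>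
      intro lam hlam
      have : (fun f : CuspForm (Gamma0 N) k =>
          lam ((algebraMap ℤ (Module.End ℂ (CuspForm (Gamma0 N) k)) r) f)) = r • lam := by
        funext f
        rw [Pi.smul_apply, ← hzsmul lam hlam]
        congr 1
      rw [this]
      exact L.smul_mem r hlam
    | add T T' _ _ ih ih' =>
      intro lam hlam
      have : (fun f : CuspForm (Gamma0 N) k => lam ((T + T') f)) =
          (fun f => lam (T f)) + fun f => lam (T' f) := by
        funext f
        simp only [LinearMap.add_apply, Pi.add_apply]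
        exact hadd lam hlam _ _
      rw [this]
      exact L.add_mem (ih lam hlam) (ih' lam hlam)
    | mul T T' _ _ ih ih' =>
      intro lam hlam
      exact ih' _ (ih lam hlam)
  obtain ⟨s, hs⟩ := hfg
  have : Module.Finite ℤ L := Module.Finite.iff_fg.mpr ⟨s, hs⟩
  have hsL : ∀ i : s, (i : CuspForm (Gamma0 N) k → ℂ) ∈ L := by
    intro i
    rw [← hs]
    exact Submodule.subset_span i.2
  let Φ : CuspForm.heckeAlgebra N k S →ₗ[ℤ] (s → L) :=
    { toFun := fun T i => ⟨fun f => (i : CuspForm (Gamma0 N) k → ℂ) (T.1 f), hstab T.1 T.2 _ (hsL i)⟩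
      map_add' := by
        intro T T'
        funext i
        apply Subtype.ext
        funext f
        simp only [Subalgebra.coe_add, LinearMap.add_apply, Pi.add_apply, Submodule.coe_add]
        exact hadd _ (hsL i) _ _
      map_smul' := by
        intro r T
        funext i
        apply Subtype.ext
        funext f
        simp only [RingHom.id_apply, Pi.smul_apply, Submodule.coe_smul]
        have h1 : ((r • T : CuspForm.heckeAlgebra N k S) : Module.End ℂ (CuspForm (Gamma0 N) k)) f
            = r • (T.1 f) := by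
          simp
        rw [h1]
        exact hzsmul _ (hsL i) r _ }
  refine Module.Finite.of_injective Φ ?_
  rw [injective_iff_map_eq_zero]
  intro T hΦ
  apply Subtype.ext
  apply LinearMap.ext
  intro f
  simp only [ZeroMemClass.coe_zero, LinearMap.zero_apply]
  apply hsep
  intro lam hlam
  rw [← hs] at hlam
  induction hlam using Submodule.span_induction with
  | mem x hx =>
    have h1 := congrFun hΦ ⟨x, hx⟩
    have h2 := congrArg (fun l : L => (l : CuspForm (Gamma0 N) k → ℂ) f) h1
    simpa [Φ] using h2
  | zero => simp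
  | add a b _ _ ha hb => simp [ha, hb]
  | smul r a _ ha => simp [ha]

theorem neg_one_mem_Gamma0 (N : ℕ) :
    (-1 : GL (Fin 2) ℝ) ∈ (Gamma0 N : Subgroup (GL (Fin 2) ℝ)) := by
  refine ⟨-1, ?_, ?_⟩
  · rw [SetLike.mem_coe, Gamma0_mem]
    simp
  · ext i j
    simp

/-- Cusp forms of weight `≤ 1` on `Γ₀(N)` vanish. -/
theorem eq_zero_of_le_one {N : ℕ} [NeZero N] {k : ℤ} (hk : k ≤ 1)
    (f : CuspForm (Gamma0 N) k) : f = 0 := by
  rcases lt_or_eq_of_le hk with hlt | rfl
  · have hk0 : k ≤ 0 := by omega
    have hz : (ModularFormClass.modularForm f : ModularForm (Gamma0 N) k) = 0 := by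
      apply ModularForm.sturm_bound_Gamma0 N
      intro n hn
      have h0 : (k * ((Gamma0 N).index : ℤ)).toNat = 0 := by
        apply Int.toNat_of_nonpos
        exact mul_nonpos_of_nonpos_of_nonneg hk0 (Int.natCast_nonneg _)
      rw [h0] at hn
      have hn0 : n = 0 := by simpa using hn
      subst hn0
      exact CuspFormClass.qExpansion_coeff_zero f one_pos
        (CongruenceSubgroup.one_mem_strictPeriods_Gamma0 N)
    have h1 := congrArg (fun F : ModularForm (Gamma0 N) k => (⇑F : ℍ → ℂ)) hz
    exact DFunLike.coe_injective h1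
  · ext z
    have hf := SlashInvariantForm.slash_action_eqn'' f (neg_one_mem_Gamma0 N) z
    rw [neg_smul, one_smul, denom_neg, denom_one] at hf
    have h2 : (2 : ℂ) * f z = 0 := by
      simp at hf
      linear_combination hf
    simpa using h2

end Fermat.Agent.S22Lib.Fin
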