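import Fermat.Agent.S22Lib.Trans
import Fermat.Prelude.Def_CuspForm_HeckeAlgebra
import Fermat.Prelude.Thm_CongruenceSubgroup_one_mem_strictPeriods_Gamma0

set_option autoImplicit false

noncomputable section

namespace Fermat.Agent.S22Lib

open UpperHalfPlane hiding I
open Filter Topology Complex Function Asymptotics
open scoped Real MatrixGroups ModularForm
open CongruenceSubgroup Matrix.SpecialLinearGroup

variable {N : ℕ} {m : ℕ}

/-- A cusp form on `Γ₀(N)` is cuspidal periodic of period 1. -/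
theorem cp_cusp [NeZero N] {k : ℤ} (f : CuspForm (Gamma0 N) k) : CP 1 (⇑f) where
  per := SlashInvariantFormClass.periodic_comp_ofComplex f
    (CongruenceSubgroup.one_mem_strictPeriods_Gamma0 N)
  hol := CuspFormClass.holo f
  zero := CuspFormClass.zero_at_infty f

/-- The canonical polynomial primitive attached to a cusp form of weight `m + 2`. -/
def HH (f : CuspForm (Gamma0 N) ((m : ℤ) + 2)) : ℍ → ℂ → ℂ → ℂ := HP 1 (⇑f) m

theorem primOf_HH [NeZero N] (f : CuspForm (Gamma0 N) ((m : ℤ) + 2)) : PrimOf (⇑f) m (HH f) :=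
  primOf_HP one_pos (cp_cusp f) m

theorem HH_vv [NeZero N] (f : CuspForm (Gamma0 N) ((m : ℤ) + 2)) (x y : ℂ) :
    VV (fun τ => HH f τ x y) :=
  HP_vv one_pos (cp_cusp f) m x y

theorem det_mapGL_pos (γ : SL(2, ℤ)) : 0 < (mapGL ℝ γ : GL (Fin 2) ℝ).val.det := by
  have h := Matrix.SpecialLinearGroup.det_mapGL (S := ℝ) γ
  have h2 : ((mapGL ℝ γ : GL (Fin 2) ℝ).det : ℝ) = 1 := by rw [h]; rfl
  rw [Matrix.GeneralLinearGroup.val_det_apply] at h2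
  rw [h2]
  exact one_pos

theorem slash_eq_of_mem {k : ℤ} (f : CuspForm (Gamma0 N) k) {γ : SL(2, ℤ)} (hγ : γ ∈ Gamma0 N) :
    (⇑f) ∣[k] (mapGL ℝ γ : GL (Fin 2) ℝ) = ⇑f :=
  SlashInvariantFormClass.slash_action_eq f _ (Subgroup.mem_map_of_mem (mapGL ℝ) hγ)

/-- The period "cocycle" of `f` at `γ`, evaluated at `(τ; x, y)`. -/
def cc (f : CuspForm (Gamma0 N) ((m : ℤ) + 2)) (γ : SL(2, ℤ)) (τ : ℍ) (x y : ℂ) : ℂ :=
  mv (mapGL ℝ γ) (HH f) τ x y - HH f τ x y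

theorem cc_indep [NeZero N] (f : CuspForm (Gamma0 N) ((m : ℤ) + 2)) {γ : SL(2, ℤ)}
    (hγ : γ ∈ Gamma0 N) (τ τ' : ℍ) (x y : ℂ) : cc f γ τ x y = cc f γ τ' x y := by
  have h1 := (primOf_HH f).mv (det_mapGL_pos γ)
  rw [slash_eq_of_mem f hγ] at h1
  exact h1.const_diff (primOf_HH f) x y τ τ'

theorem cc_one (f : CuspForm (Gamma0 N) ((m : ℤ) + 2)) (τ : ℍ) (x y : ℂ) : cc f 1 τ x y = 0 := by
  simp [cc, mv_one]

theorem mapGL_apply' (γ : SL(2, ℤ)) (i j : Fin 2) :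
    ((mapGL ℝ γ : GL (Fin 2) ℝ) i j : ℂ) = ((γ i j : ℤ) : ℂ) := by
  simp

theorem cc_mul [NeZero N] (f : CuspForm (Gamma0 N) ((m : ℤ) + 2)) {γ δ : SL(2, ℤ)}
    (hγ : γ ∈ Gamma0 N) (τ : ℍ) (x y : ℂ) :
    cc f (γ * δ) τ x y =
      cc f γ τ ((δ 0 0 : ℂ) * x + (δ 0 1 : ℂ) * y) ((δ 1 0 : ℂ) * x + (δ 1 1 : ℂ) * y)
        + cc f δ τ x y := by
  rw [cc_indep f hγ τ (mapGL ℝ δ • τ)]
  simp only [cc, map_mul, mv_mul]
  simp only [mv_apply, mapGL_apply']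
  ring

/-- The cocycle functional at an integral vector, as a function of the cusp form. -/
def cfun (N m : ℕ) (γ : SL(2, ℤ)) (x y : ℤ) : CuspForm (Gamma0 N) ((m : ℤ) + 2) → ℂ :=
  fun f => cc f γ UpperHalfPlane.I x y

/-- The lattice of period functionals. -/
def Lam (N m : ℕ) : Submodule ℤ (CuspForm (Gamma0 N) ((m : ℤ) + 2) → ℂ) :=
  Submodule.span ℤ {lam | ∃ γ ∈ Gamma0 N, ∃ x y : ℤ, lam = cfun N m γ x y}

theorem cfun_mem_Lam {γ : SL(2, ℤ)} (hγ : γ ∈ Gamma0 N) (x y : ℤ) : cfun N m γ x y ∈ Lam N m :=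
  Submodule.subset_span ⟨γ, hγ, x, y, rfl⟩

theorem cfun_apply (γ : SL(2, ℤ)) (x y : ℤ) (f : CuspForm (Gamma0 N) ((m : ℤ) + 2)) :
    cfun N m γ x y f = cc f γ UpperHalfPlane.I x y := rfl

end Fermat.Agent.S22Lib
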