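import Fermat.Agent.S22Lib.Prim

set_option autoImplicit false

noncomputable section

namespace Fermat.Agent.S22Lib

open UpperHalfPlane hiding I
open Filter Topology Complex Function Asymptotics
open scoped Real

/-- Vanishing along every vertical line. -/
def VV (G : ℍ → ℂ) : Prop :=
  ∀ x₀ : ℝ, Tendsto (fun t : ℝ => G (ofComplex ((x₀ : ℂ) + t * I))) atTop (𝓝 0)

theorem tendsto_vert (x₀ : ℝ) :
    Tendsto (fun t : ℝ => ofComplex ((x₀ : ℂ) + t * I)) atTop atImInfty := by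
  refine tendsto_comap_im_ofComplex.comp ?_
  rw [tendsto_comap_iff]
  have : (Complex.im ∘ fun t : ℝ => (x₀ : ℂ) + t * I) = id := by
    funext t; simp
  rw [this]; exact tendsto_id

theorem VV.add {G₁ G₂ : ℍ → ℂ} (h₁ : VV G₁) (h₂ : VV G₂) : VV (fun τ => G₁ τ + G₂ τ) := by
  intro x₀
  simpa using (h₁ x₀).add (h₂ x₀)

theorem VV.sub {G₁ G₂ : ℍ → ℂ} (h₁ : VV G₁) (h₂ : VV G₂) : VV (fun τ => G₁ τ - G₂ τ) := by
  intro x₀
  simpa using (h₁ x₀).sub (h₂ x₀)

theorem VV.const_mul {G : ℍ → ℂ} (c : ℂ) (hG : VV G) : VV (fun τ => c * G τ) := by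
  intro x₀
  simpa using (hG x₀).const_mul c

theorem VV.zero : VV (fun _ => 0) := fun _ => tendsto_const_nhds

theorem VV.sum {ι : Type*} (s : Finset ι) {G : ι → ℍ → ℂ} (hG : ∀ i ∈ s, VV (G i)) :
    VV (fun τ => ∑ i ∈ s, G i τ) := by
  classical
  induction s using Finset.induction_on with
  | empty => simpa using VV.zero
  | insert i t hi ih =>
    have h1 : VV (G i) := hG i (Finset.mem_insert_self i t)
    have h2 : VV (fun τ => ∑ j ∈ t, G j τ) := ih fun j hj => hG j (Finset.mem_insert_of_mem hj)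
    have := h1.add h2
    simpa [Finset.sum_insert hi] using this

theorem vv_of_cp {h : ℝ} {ψ : ℍ → ℂ} (hψ : CP h ψ) : VV ψ := fun x₀ =>
  hψ.zero.comp (tendsto_vert x₀)

theorem vv_pow_mul {h : ℝ} (hh : 0 < h) {ψ : ℍ → ℂ} (hψ : CP h ψ) (a b : ℂ) (n : ℕ) :
    VV (fun τ => (a + b * (τ : ℂ)) ^ n * ψ τ) := by
  intro x₀
  have hκ : 0 < 2 * π / h := div_pos Real.two_pi_pos hh
  have hO : ψ =O[atImInfty] fun τ => Real.exp (-2 * π * τ.im / h) :=
    hψ.zero.exp_decay_atImInfty hh hψ.per hψ.hol hψ.zero.isBoundedAtImInfty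
  have hO1 := hO.comp_tendsto (tendsto_vert x₀)
  have hcoe : ∀ t : ℝ, 0 < t → (ofComplex ((x₀ : ℂ) + t * I) : ℂ) = (x₀ : ℂ) + t * I := by
    intro t ht
    have : 0 < ((x₀ : ℂ) + t * I).im := by simpa using ht
    rw [ofComplex_apply_of_im_pos this]
  have hO2 : (fun t : ℝ => ψ (ofComplex ((x₀ : ℂ) + t * I))) =O[atTop]
      fun t : ℝ => Real.exp (-(2 * π / h) * t) := by
    refine hO1.congr' (Eventually.of_forall fun t => rfl) ?_
    filter_upwards [eventually_gt_atTop 0] with t ht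
    have him : (ofComplex ((x₀ : ℂ) + t * I)).im = t := by
      have := congrArg Complex.im (hcoe t ht)
      simpa using this
    simp only [comp_apply, him]
    congr 1
    ring
  have hlin : (fun t : ℝ => a + b * ((x₀ : ℂ) + t * I)) =O[atTop] fun t : ℝ => t := by
    have h1 : (fun _ : ℝ => a + b * x₀) =O[atTop] fun t : ℝ => t :=
      (isLittleO_const_id_atTop (a + b * x₀)).isBigO
    have h2 : (fun t : ℝ => b * I * (t : ℂ)) =O[atTop] fun t : ℝ => t := by
      refine IsBigO.of_bound ‖b * I‖ (Eventually.of_forall fun t => ?_)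
      simp
    refine (h1.add h2).congr_left fun t => ?_
    ring
  have hP : (fun t : ℝ => (a + b * (ofComplex ((x₀ : ℂ) + t * I) : ℂ)) ^ n) =o[atTop]
      fun t : ℝ => Real.exp ((2 * π / h) * t) := by
    have h1 : (fun t : ℝ => (a + b * ((x₀ : ℂ) + t * I)) ^ n) =O[atTop] fun t : ℝ => t ^ n :=
      hlin.pow n
    have h2 := h1.trans_isLittleO (isLittleO_pow_exp_pos_mul_atTop n hκ)
    refine h2.congr' ?_ (Eventually.of_forall fun t => rfl)
    filter_upwards [eventually_gt_atTop 0] with t ht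
    rw [hcoe t ht]
  have hprod := hP.mul_isBigO hO2
  have hone : (fun t : ℝ => Real.exp ((2 * π / h) * t) * Real.exp (-(2 * π / h) * t))
      = fun _ => (1 : ℝ) := by
    funext t
    rw [← Real.exp_add]
    simp
  rw [hone] at hprod
  exact (isLittleO_one_iff ℝ).mp hprod

/-- The polynomial-coefficient primitive of `φ(τ) (x - τ y)^m`. -/
def HP (h : ℝ) (φ : ℍ → ℂ) (m : ℕ) (τ : ℍ) (x y : ℂ) : ℂ :=
  ∑ l ∈ Finset.range (m + 1),
    (m.descFactorial l : ℂ) * (x - (τ : ℂ) * y) ^ (m - l) * y ^ l * itI h φ (l + 1) τ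

theorem hasDerivAt_coe_ofComplex (τ : ℍ) :
    HasDerivAt (fun z : ℂ => (ofComplex z : ℂ)) 1 τ := by
  refine (hasDerivAt_id (τ : ℂ)).congr_of_eventuallyEq ?_
  filter_upwards [eventuallyEq_coe_comp_ofComplex τ.im_pos] with z hz
  simpa using hz

theorem HP_deriv {h : ℝ} (hh : 0 < h) {φ : ℍ → ℂ} (hφ : CP h φ) (m : ℕ) (x y : ℂ) (τ : ℍ) :
    HasDerivAt (fun z : ℂ => HP h φ m (ofComplex z) x y) (φ τ * (x - (τ : ℂ) * y) ^ m) τ := by
  set A : ℕ → ℂ := fun l =>
    (m.descFactorial l : ℂ) * (x - (τ : ℂ) * y) ^ (m - l) * y ^ l * itI h φ l τ with hA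
  have hterm : ∀ l ∈ Finset.range (m + 1), HasDerivAt (fun z : ℂ =>
      (m.descFactorial l : ℂ) * (x - (ofComplex z : ℂ) * y) ^ (m - l) * y ^ l *
        itI h φ (l + 1) (ofComplex z)) (A l - A (l + 1)) τ := by
    intro l _
    have h1 : HasDerivAt (fun z : ℂ => x - (ofComplex z : ℂ) * y) (-y) τ := by
      have := ((hasDerivAt_coe_ofComplex τ).mul_const y).const_sub x
      simpa using this
    have h2 := h1.pow (m - l)
    have h3 : HasDerivAt (fun z : ℂ => itI h φ (l + 1) (ofComplex z)) (itI h φ l τ) τ :=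
      itI_deriv hh hφ l τ
    have h4 := (((h2.const_mul (m.descFactorial l : ℂ)).mul_const (y ^ l)).mul h3)
    have hτ : (ofComplex (τ : ℂ) : ℂ) = τ := by rw [ofComplex_apply]
    have hτ' : ofComplex (τ : ℂ) = τ := ofComplex_apply τ
    refine HasDerivAt.congr_deriv (h4.congr_of_eventuallyEq (Eventually.of_forall fun z => ?_)) ?_
    · simp only [Pi.pow_apply, Pi.mul_apply]
    · simp only [hA, Pi.pow_apply, hτ', Nat.descFactorial_succ]
      have hsub : m - l - 1 = m - (l + 1) := by omega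
      rw [hsub]
      push_cast
      ring
  have hsum := HasDerivAt.fun_sum hterm
  have htel : ∑ l ∈ Finset.range (m + 1), (A l - A (l + 1)) = φ τ * (x - (τ : ℂ) * y) ^ m := by
    rw [Finset.sum_range_sub']
    simp only [hA]
    rw [Nat.descFactorial_of_lt (Nat.lt_succ_self m)]
    simp
    ring
  rw [htel] at hsum
  exact hsum

theorem HP_vv {h : ℝ} (hh : 0 < h) {φ : ℍ → ℂ} (hφ : CP h φ) (m : ℕ) (x y : ℂ) :
    VV (fun τ => HP h φ m τ x y) := by
  unfold HP
  refine VV.sum _ fun l _ => ?_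
  have h1 := (vv_pow_mul hh (itI_cp hh hφ (l + 1)) x (-y) (m - l)).const_mul
    ((m.descFactorial l : ℂ) * y ^ l)
  have h2 : (fun τ : ℍ => (m.descFactorial l : ℂ) * y ^ l *
      ((x + -y * (τ : ℂ)) ^ (m - l) * itI h φ (l + 1) τ)) =
      fun τ : ℍ => (m.descFactorial l : ℂ) * (x - (τ : ℂ) * y) ^ (m - l) * y ^ l *
        itI h φ (l + 1) τ := by
    funext τ
    ring
  rw [h2] at h1
  exact h1

theorem HP_diag (h : ℝ) (φ : ℍ → ℂ) (m : ℕ) (τ : ℍ) :
    HP h φ m τ τ 1 = (m.factorial : ℂ) * itI h φ (m + 1) τ := by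
  unfold HP
  rw [Finset.sum_eq_single m]
  · simp [Nat.descFactorial_self]
  · intro l hl hlm
    have hlt : l < m := lt_of_le_of_ne (Nat.lt_succ_iff.mp (Finset.mem_range.mp hl)) hlm
    have : m - l ≠ 0 := by omega
    simp [this]
  · intro hm
    exact absurd (Finset.mem_range.mpr (Nat.lt_succ_self m)) hm

theorem HP_homog (h : ℝ) (φ : ℍ → ℂ) (m : ℕ) (τ : ℍ) (c x y : ℂ) :
    HP h φ m τ (c * x) (c * y) = c ^ m * HP h φ m τ x y := by
  unfold HP
  rw [Finset.mul_sum]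
  refine Finset.sum_congr rfl fun l hl => ?_
  have hle : l ≤ m := Nat.lt_succ_iff.mp (Finset.mem_range.mp hl)
  have hc : c ^ m = c ^ (m - l) * c ^ l := by
    rw [← pow_add, Nat.sub_add_cancel hle]
  have h1 : c * x - (τ : ℂ) * (c * y) = c * (x - (τ : ℂ) * y) := by ring
  rw [h1, mul_pow, mul_pow, hc]
  ring

end Fermat.Agent.S22Lib
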