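import Fermat.Agent.S22Lib.Defs

set_option autoImplicit false

noncomputable section

namespace Fermat.Agent.S22Lib.Sep

open Fermat.Agent.S22Lib
open UpperHalfPlane hiding I
open Filter Topology Complex Function
open scoped Real MatrixGroups ModularForm
open CongruenceSubgroup Matrix.SpecialLinearGroup

/-- `F` is a polynomial function. -/
def IsPoly (F : ℂ → ℂ) : Prop := ∃ p : Polynomial ℂ, ∀ x, F x = p.eval x

theorem IsPoly.const (c : ℂ) : IsPoly (fun _ => c) := ⟨Polynomial.C c, fun x => by simp⟩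

theorem IsPoly.id : IsPoly (fun x => x) := ⟨Polynomial.X, fun x => by simp⟩

theorem IsPoly.add {F G : ℂ → ℂ} (hF : IsPoly F) (hG : IsPoly G) :
    IsPoly (fun x => F x + G x) := by
  obtain ⟨p, hp⟩ := hF
  obtain ⟨q, hq⟩ := hG
  exact ⟨p + q, fun x => by simp [hp, hq]⟩

theorem IsPoly.sub {F G : ℂ → ℂ} (hF : IsPoly F) (hG : IsPoly G) :
    IsPoly (fun x => F x - G x) := by
  obtain ⟨p, hp⟩ := hF
  obtain ⟨q, hq⟩ := hG
  exact ⟨p - q, fun x => by simp [hp, hq]⟩

theorem IsPoly.mul {F G : ℂ → ℂ} (hF : IsPoly F) (hG : IsPoly G) :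
    IsPoly (fun x => F x * G x) := by
  obtain ⟨p, hp⟩ := hF
  obtain ⟨q, hq⟩ := hG
  exact ⟨p * q, fun x => by simp [hp, hq]⟩

theorem IsPoly.pow {F : ℂ → ℂ} (hF : IsPoly F) (n : ℕ) : IsPoly (fun x => F x ^ n) := by
  obtain ⟨p, hp⟩ := hF
  exact ⟨p ^ n, fun x => by simp [hp]⟩

theorem IsPoly.sum {ι : Type*} (s : Finset ι) {F : ι → ℂ → ℂ} (h : ∀ i ∈ s, IsPoly (F i)) :
    IsPoly (fun x => ∑ i ∈ s, F i x) := by
  classical
  induction s using Finset.induction_on with
  | empty => simpa using IsPoly.const 0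
  | insert i t hi ih =>
    have h1 : IsPoly (F i) := h i (Finset.mem_insert_self i t)
    have h2 : IsPoly (fun x => ∑ j ∈ t, F j x) := ih fun j hj => h j (Finset.mem_insert_of_mem hj)
    have := h1.add h2
    simpa [Finset.sum_insert hi] using this

theorem IsPoly.eq_zero_of_int {F : ℂ → ℂ} (hF : IsPoly F) (h : ∀ n : ℤ, F n = 0) (x : ℂ) :
    F x = 0 := by
  obtain ⟨p, hp⟩ := hF
  have hp0 : p = 0 := by
    apply Polynomial.eq_zero_of_infinite_isRoot
    refine Set.Infinite.mono ?_ (Set.infinite_range_of_injective (Int.cast_injective (α := ℂ)))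
    rintro _ ⟨n, rfl⟩
    simp only [Set.mem_ofPred_eq, Polynomial.IsRoot]
    rw [← hp, h n]
  simp [hp, hp0]

/-- A polynomial function which is `M`-periodic on the upper half plane is constant. -/
theorem IsPoly.const_of_periodic {F : ℂ → ℂ} (hF : IsPoly F) {M : ℝ} (hM : M ≠ 0)
    (h : ∀ z : ℂ, 0 < z.im → F (z + M) = F z) (x : ℂ) : F x = F I := by
  obtain ⟨p, hp⟩ := hF
  have hroot : ∀ n : ℕ, p.eval (I + n * (M : ℂ)) = p.eval I := by
    intro n
    induction n with
    | zero => simp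
    | succ n ih =>
      have him : 0 < (I + n * (M : ℂ)).im := by simp
      have := h _ him
      rw [hp, hp] at this
      rw [← ih, ← this]
      congr 1
      push_cast
      ring
  have hq0 : p - Polynomial.C (p.eval I) = 0 := by
    apply Polynomial.eq_zero_of_infinite_isRoot
    have hinj : Function.Injective (fun n : ℕ => I + n * (M : ℂ)) := by
      intro a b hab
      have hM' : (M : ℂ) ≠ 0 := by exact_mod_cast hM
      have h1 : (a : ℂ) * M = b * M := add_left_cancel hab
      have h2 : (a : ℂ) = b := mul_right_cancel₀ hM' h1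
      exact_mod_cast h2
    refine Set.Infinite.mono ?_ (Set.infinite_range_of_injective hinj)
    rintro _ ⟨n, rfl⟩
    simp only [Set.mem_ofPred_eq, Polynomial.IsRoot, Polynomial.eval_sub, Polynomial.eval_C]
    rw [hroot n, sub_self]
  have hpc : p = Polynomial.C (p.eval I) := sub_eq_zero.mp hq0
  rw [hp, hp, hpc]
  simp

theorem HP_isPoly (h : ℝ) (φ : ℍ → ℂ) (m : ℕ) (τ : ℍ) {P Q : ℂ → ℂ} (hP : IsPoly P)
    (hQ : IsPoly Q) : IsPoly (fun t => HP h φ m τ (P t) (Q t)) := by
  unfold HP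
  refine IsPoly.sum _ fun l _ => ?_
  exact (((IsPoly.const _).mul ((hP.sub ((IsPoly.const _).mul hQ)).pow _)).mul (hQ.pow _)).mul
    (IsPoly.const _)

end Fermat.Agent.S22Lib.Sep
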