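import Mathlib

set_option autoImplicit false

noncomputable section

namespace Fermat.Agent.S22Lib

open UpperHalfPlane hiding I
open Filter Topology Complex Function Asymptotics
open scoped Real

/-- Cuspidal periodic holomorphic functions on the upper half plane. -/
structure CP (h : ℝ) (φ : ℍ → ℂ) : Prop where
  per : Periodic (φ ∘ ofComplex) h
  hol : MDifferentiable (modelWithCornersSelf ℂ ℂ) (modelWithCornersSelf ℂ ℂ) φ
  zero : IsZeroAtImInfty φ

theorem qParam_add_period {h : ℝ} (hh : h ≠ 0) (w : ℂ) :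
    Periodic.qParam h (w + h) = Periodic.qParam h w := by
  have hh' : (h : ℂ) ≠ 0 := by exact_mod_cast hh
  unfold Periodic.qParam
  have : 2 * (π : ℂ) * I * (w + h) / h = 2 * π * I * w / h + 2 * π * I := by
    field_simp
  rw [this, Complex.exp_add, Complex.exp_two_pi_mul_I, mul_one]

theorem hasDerivAt_qParam (h : ℝ) (z : ℂ) :
    HasDerivAt (Periodic.qParam h) (Periodic.qParam h z * (2 * π * I / h)) z := by
  unfold Periodic.qParam
  have h1 : HasDerivAt (fun z : ℂ => 2 * π * I * z / h) (2 * π * I / h) z := by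
    simpa using ((hasDerivAt_id z).const_mul (2 * π * I)).div_const (h : ℂ)
  exact h1.cexp

/-- Existence of a cuspidal periodic primitive. -/
theorem exists_prim {h : ℝ} (hh : 0 < h) {φ : ℍ → ℂ} (hφ : CP h φ) :
    ∃ G : ℍ → ℂ, CP h G ∧ ∀ τ : ℍ, HasDerivAt (G ∘ ofComplex) (φ τ) τ := by
  set Φ := cuspFunction h φ with hΦ
  have hΦd : DifferentiableOn ℂ Φ (Metric.ball 0 1) :=
    differentiableOn_cuspFunction_ball hh hφ.per hφ.hol hφ.zero.isBoundedAtImInfty
  have hΦ0 : Φ 0 = 0 := hφ.zero.cuspFunction_apply_zero hh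
  have hg : DifferentiableOn ℂ (dslope Φ 0) (Metric.ball 0 1) :=
    (Complex.differentiableOn_dslope (Metric.ball_mem_nhds 0 one_pos)).mpr hΦd
  obtain ⟨Ψ, hΨ0, hΨ⟩ := (hg.isExactOn_ball).with_val_at 0 0
  have hh' : (h : ℂ) ≠ 0 := by exact_mod_cast hh.ne'
  have hpi : (2 * (π : ℂ) * I) ≠ 0 := Complex.two_pi_I_ne_zero
  -- the derivative computation
  have key : ∀ τ : ℍ, HasDerivAt (fun z : ℂ => (h / (2 * π * I)) * Ψ (Periodic.qParam h z))
      (φ τ) τ := by
    intro τ
    have hq : Periodic.qParam h τ ∈ Metric.ball (0 : ℂ) 1 := by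
      simpa using Periodic.norm_qParam_lt_one hh τ.im_pos
    have h1 := (hΨ _ hq).comp (τ : ℂ) (hasDerivAt_qParam h τ)
    have h2 := h1.const_mul ((h : ℂ) / (2 * π * I))
    have hval : (h : ℂ) / (2 * π * I) *
        (dslope Φ 0 (Periodic.qParam h τ) * (Periodic.qParam h τ * (2 * π * I / h))) = φ τ := by
      have h3 := sub_smul_dslope Φ 0 (Periodic.qParam h τ)
      rw [sub_zero, hΦ0, sub_zero, smul_eq_mul] at h3
      have h4 : Φ (Periodic.qParam h τ) = φ τ := eq_cuspFunction τ hh.ne' hφ.per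
      rw [← h4, ← h3]
      field_simp
    rw [hval] at h2
    exact h2
  refine ⟨fun τ => (h / (2 * π * I)) * Ψ (Periodic.qParam h τ), ⟨?_, ?_, ?_⟩, ?_⟩
  · intro w
    by_cases hw : 0 < w.im
    · have hw' : 0 < (w + h).im := by simpa using hw
      simp only [comp_apply, ofComplex_apply_of_im_pos hw', ofComplex_apply_of_im_pos hw]
      rw [qParam_add_period hh.ne']
    · have hw0 : w.im ≤ 0 := not_lt.mp hw
      have hw' : (w + h).im ≤ 0 := by simpa using hw0
      simp only [comp_apply]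
      rw [ofComplex_apply_eq_of_im_nonpos hw' hw0]
  · rw [UpperHalfPlane.mdifferentiable_iff]
    intro z hz
    have hz' : 0 < z.im := hz
    have := key ⟨z, hz'⟩
    refine (this.differentiableAt.congr_of_eventuallyEq ?_).differentiableWithinAt
    filter_upwards [isOpen_upperHalfPlaneSet.mem_nhds hz'] with x hx
    simp only [comp_apply, ofComplex_apply_of_im_pos hx]
  · have h1 : Tendsto (fun τ : ℍ => Periodic.qParam h τ) atImInfty (𝓝 0) :=
      qParam_tendsto_atImInfty hh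
    have h2 : ContinuousAt Ψ 0 := (hΨ 0 (Metric.mem_ball_self one_pos)).continuousAt
    have h3 : Tendsto (fun τ : ℍ => Ψ (Periodic.qParam h τ)) atImInfty (𝓝 (Ψ 0)) :=
      h2.tendsto.comp h1
    rw [hΨ0] at h3
    have h4 := h3.const_mul ((h : ℂ) / (2 * π * I))
    rw [mul_zero] at h4
    exact h4
  · intro τ
    refine (key τ).congr_of_eventuallyEq ?_
    filter_upwards [isOpen_upperHalfPlaneSet.mem_nhds τ.im_pos] with x hx
    simp only [comp_apply, ofComplex_apply_of_im_pos hx]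

open Classical in
/-- A chosen cuspidal periodic primitive (junk value `0` if hypotheses fail). -/
def primI (h : ℝ) (φ : ℍ → ℂ) : ℍ → ℂ :=
  if hc : 0 < h ∧ CP h φ then Classical.choose (exists_prim hc.1 hc.2) else 0

theorem primI_cp {h : ℝ} (hh : 0 < h) {φ : ℍ → ℂ} (hφ : CP h φ) : CP h (primI h φ) := by
  unfold primI
  rw [dif_pos ⟨hh, hφ⟩]
  exact (Classical.choose_spec (exists_prim hh hφ)).1

theorem primI_deriv {h : ℝ} (hh : 0 < h) {φ : ℍ → ℂ} (hφ : CP h φ) (τ : ℍ) :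
    HasDerivAt (primI h φ ∘ ofComplex) (φ τ) τ := by
  unfold primI
  rw [dif_pos ⟨hh, hφ⟩]
  exact (Classical.choose_spec (exists_prim hh hφ)).2 τ

/-- Iterated primitives. -/
def itI (h : ℝ) (φ : ℍ → ℂ) : ℕ → (ℍ → ℂ)
  | 0 => φ
  | (n + 1) => primI h (itI h φ n)

@[simp] theorem itI_zero (h : ℝ) (φ : ℍ → ℂ) : itI h φ 0 = φ := rfl

theorem itI_succ (h : ℝ) (φ : ℍ → ℂ) (n : ℕ) : itI h φ (n + 1) = primI h (itI h φ n) := rfl

theorem itI_cp {h : ℝ} (hh : 0 < h) {φ : ℍ → ℂ} (hφ : CP h φ) (n : ℕ) : CP h (itI h φ n) := by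
  induction n with
  | zero => exact hφ
  | succ n ih => exact primI_cp hh ih

theorem itI_deriv {h : ℝ} (hh : 0 < h) {φ : ℍ → ℂ} (hφ : CP h φ) (n : ℕ) (τ : ℍ) :
    HasDerivAt (itI h φ (n + 1) ∘ ofComplex) (itI h φ n τ) τ :=
  primI_deriv hh (itI_cp hh hφ n) τ

/-- Uniqueness: two functions on the upper half plane with the same derivative whose difference
tends to zero along the imaginary axis agree. -/
theorem eq_of_hasDerivAt_of_tendsto {G₁ G₂ : ℍ → ℂ} {d : ℍ → ℂ}
    (h₁ : ∀ τ : ℍ, HasDerivAt (G₁ ∘ ofComplex) (d τ) τ)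
    (h₂ : ∀ τ : ℍ, HasDerivAt (G₂ ∘ ofComplex) (d τ) τ)
    (hlim : Tendsto (fun t : ℝ => G₁ (ofComplex (t * I)) - G₂ (ofComplex (t * I))) atTop (𝓝 0)) :
    G₁ = G₂ := by
  set D : ℂ → ℂ := fun z => G₁ (ofComplex z) - G₂ (ofComplex z) with hD
  have hDd : ∀ z : ℂ, 0 < z.im → HasDerivAt D 0 z := by
    intro z hz
    have := (h₁ ⟨z, hz⟩).sub (h₂ ⟨z, hz⟩)
    rw [sub_self] at this
    exact this
  have hconst : ∀ x ∈ {z : ℂ | 0 < z.im}, ∀ y ∈ {z : ℂ | 0 < z.im}, D x = D y := by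
    intro x hx y hy
    refine IsOpen.is_const_of_deriv_eq_zero isOpen_upperHalfPlaneSet
      (convex_halfSpace_im_gt 0).isPreconnected ?_ ?_ hx hy
    · intro z hz
      exact (hDd z hz).differentiableAt.differentiableWithinAt
    · intro z hz
      exact (hDd z hz).deriv
  funext τ
  have h3 : ∀ᶠ t : ℝ in atTop, D (t * I) = D τ := by
    filter_upwards [eventually_gt_atTop 0] with t ht
    exact hconst _ (by simpa using ht) _ τ.im_pos
  have h4 : Tendsto (fun t : ℝ => D (t * I)) atTop (𝓝 (D τ)) :=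
    tendsto_const_nhds.congr' (h3.mono fun t ht => ht.symm)
  have h5 : D τ = 0 := tendsto_nhds_unique h4 hlim
  have h6 : G₁ τ - G₂ τ = 0 := by simpa [hD] using h5
  exact sub_eq_zero.mp h6

end Fermat.Agent.S22Lib
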