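import Fermat.Agent.S22Lib.HP

set_option autoImplicit false

noncomputable section

namespace Fermat.Agent.S22Lib

open UpperHalfPlane hiding I
open Filter Topology Complex Function Asymptotics
open scoped Real MatrixGroups ModularForm

/-- `G` is a primitive (in `τ`) of `f τ * (x - τ y)^m`, for all `x y`. -/
def PrimOf (f : ℍ → ℂ) (m : ℕ) (G : ℍ → ℂ → ℂ → ℂ) : Prop :=
  ∀ (x y : ℂ) (τ : ℍ),
    HasDerivAt (fun z : ℂ => G (ofComplex z) x y) (f τ * (x - (τ : ℂ) * y) ^ m) τ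

/-- Move a function of `(τ, x, y)` by a real matrix. -/
def mv (g : GL (Fin 2) ℝ) (G : ℍ → ℂ → ℂ → ℂ) : ℍ → ℂ → ℂ → ℂ :=
  fun τ x y => G (g • τ) ((g 0 0 : ℂ) * x + (g 0 1 : ℂ) * y) ((g 1 0 : ℂ) * x + (g 1 1 : ℂ) * y)

theorem mv_apply (g : GL (Fin 2) ℝ) (G : ℍ → ℂ → ℂ → ℂ) (τ : ℍ) (x y : ℂ) :
    mv g G τ x y =
      G (g • τ) ((g 0 0 : ℂ) * x + (g 0 1 : ℂ) * y) ((g 1 0 : ℂ) * x + (g 1 1 : ℂ) * y) := rfl

theorem mv_one (G : ℍ → ℂ → ℂ → ℂ) : mv 1 G = G := by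
  funext τ x y
  simp [mv]

theorem mv_mul (g g' : GL (Fin 2) ℝ) (G : ℍ → ℂ → ℂ → ℂ) : mv (g * g') G = mv g' (mv g G) := by
  funext τ x y
  simp only [mv, mul_smul]
  congr 1
  · simp [Matrix.mul_apply, Fin.sum_univ_two]; ring
  · simp [Matrix.mul_apply, Fin.sum_univ_two]; ring

theorem PrimOf.mv {f : ℍ → ℂ} {m : ℕ} {G : ℍ → ℂ → ℂ → ℂ} (hG : PrimOf f m G)
    {g : GL (Fin 2) ℝ} (hg : 0 < g.val.det) :
    PrimOf (f ∣[(m : ℤ) + 2] g) m (mv g G) := by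
  intro x y τ
  set X : ℂ := (g 0 0 : ℂ) * x + (g 0 1 : ℂ) * y with hX
  set Y : ℂ := (g 1 0 : ℂ) * x + (g 1 1 : ℂ) * y with hY
  have h1 := hG X Y (g • τ)
  have h2 : HasDerivAt (fun z : ℂ => ((g • ofComplex z : ℍ) : ℂ))
      ((g.val.det : ℂ) / denom g τ ^ 2) τ := (hasStrictDerivAt_smul hg τ).hasDerivAt
  have h1' : HasDerivAt (fun z : ℂ => G (ofComplex z) X Y)
      (f (g • τ) * (X - ((g • τ : ℍ) : ℂ) * Y) ^ m)
      ((fun z : ℂ => ((g • ofComplex z : ℍ) : ℂ)) τ) := by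
    simpa using h1
  have h3 := h1'.comp (τ : ℂ) h2
  have hfun : ((fun z : ℂ => G (ofComplex z) X Y) ∘ fun z : ℂ => ((g • ofComplex z : ℍ) : ℂ))
      = fun z : ℂ => Fermat.Agent.S22Lib.mv g G (ofComplex z) x y := by
    funext z
    simp [Fermat.Agent.S22Lib.mv, hX, hY]
  rw [hfun] at h3
  refine h3.congr_deriv ?_
  -- algebra
  have hg' : 0 < g.det.val := by simpa using hg
  have hd : denom g τ ≠ 0 := denom_ne_zero g τ
  have hdet : (g.val.det : ℂ) = (g 0 0 : ℂ) * (g 1 1 : ℂ) - (g 0 1 : ℂ) * (g 1 0 : ℂ) := by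
    rw [Matrix.det_fin_two]; push_cast; ring
  have hcoe : ((g • τ : ℍ) : ℂ) = num g τ / denom g τ := coe_smul_of_det_pos hg' τ
  have hk1 : (m : ℤ) + 2 - 1 = ((m + 1 : ℕ) : ℤ) := by push_cast; ring
  have hk2 : -((m : ℤ) + 2) = -((m + 2 : ℕ) : ℤ) := by push_cast; ring
  have habs : |g.det.val| = g.val.det := by
    rw [abs_of_pos hg']; simp
  rw [ModularForm.slash_apply, σ, if_pos hg', hk1, hk2, zpow_natCast, zpow_neg, zpow_natCast,
    habs, hcoe, hdet]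
  simp only [ContinuousAlgEquiv.refl_apply]
  have hkey : X - num g τ / denom g τ * Y =
      ((g 0 0 : ℂ) * (g 1 1 : ℂ) - (g 0 1 : ℂ) * (g 1 0 : ℂ)) * (x - (τ : ℂ) * y) / denom g τ := by
    rw [hX, hY]
    field_simp
    simp only [num, denom]
    ring
  rw [hkey, div_pow, mul_pow]
  field_simp
  ring

/-- two primitives of the same function differ by a constant -/
theorem const_of_hasDerivAt {G₁ G₂ : ℍ → ℂ} {d : ℍ → ℂ}
    (h₁ : ∀ τ : ℍ, HasDerivAt (G₁ ∘ ofComplex) (d τ) τ)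
    (h₂ : ∀ τ : ℍ, HasDerivAt (G₂ ∘ ofComplex) (d τ) τ) (τ τ' : ℍ) :
    G₁ τ - G₂ τ = G₁ τ' - G₂ τ' := by
  set D : ℂ → ℂ := fun z => G₁ (ofComplex z) - G₂ (ofComplex z) with hD
  have hDd : ∀ z : ℂ, 0 < z.im → HasDerivAt D 0 z := by
    intro z hz
    have := (h₁ ⟨z, hz⟩).sub (h₂ ⟨z, hz⟩)
    rw [sub_self] at this
    exact this
  have hconst : D τ = D τ' := by
    refine IsOpen.is_const_of_deriv_eq_zero isOpen_upperHalfPlaneSet
      (convex_halfSpace_im_gt 0).isPreconnected ?_ ?_ τ.im_pos τ'.im_pos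
    · intro z hz
      exact (hDd z hz).differentiableAt.differentiableWithinAt
    · intro z hz
      exact (hDd z hz).deriv
  simpa [hD] using hconst

theorem PrimOf.const_diff {f : ℍ → ℂ} {m : ℕ} {G₁ G₂ : ℍ → ℂ → ℂ → ℂ}
    (h₁ : PrimOf f m G₁) (h₂ : PrimOf f m G₂) (x y : ℂ) (τ τ' : ℍ) :
    G₁ τ x y - G₂ τ x y = G₁ τ' x y - G₂ τ' x y :=
  const_of_hasDerivAt (G₁ := fun τ => G₁ τ x y) (G₂ := fun τ => G₂ τ x y)
    (d := fun τ => f τ * (x - (τ : ℂ) * y) ^ m) (fun τ => h₁ x y τ) (fun τ => h₂ x y τ) τ τ'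

theorem PrimOf.eq_of_vv {f : ℍ → ℂ} {m : ℕ} {G₁ G₂ : ℍ → ℂ → ℂ → ℂ}
    (h₁ : PrimOf f m G₁) (h₂ : PrimOf f m G₂)
    (hv₁ : ∀ x y, VV (fun τ => G₁ τ x y)) (hv₂ : ∀ x y, VV (fun τ => G₂ τ x y)) :
    G₁ = G₂ := by
  funext τ x y
  have h := eq_of_hasDerivAt_of_tendsto (G₁ := fun τ => G₁ τ x y) (G₂ := fun τ => G₂ τ x y)
    (d := fun τ => f τ * (x - (τ : ℂ) * y) ^ m) (fun τ => h₁ x y τ) (fun τ => h₂ x y τ) (by
      have := ((hv₁ x y).sub (hv₂ x y)) 0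
      simpa using this)
  exact congrFun h τ

theorem primOf_HP {h : ℝ} (hh : 0 < h) {φ : ℍ → ℂ} (hφ : CP h φ) (m : ℕ) :
    PrimOf φ m (HP h φ m) := fun x y τ => HP_deriv hh hφ m x y τ

theorem PrimOf.sum {ι : Type*} (s : Finset ι) {f : ι → ℍ → ℂ} {m : ℕ}
    {G : ι → ℍ → ℂ → ℂ → ℂ} (hG : ∀ i ∈ s, PrimOf (f i) m (G i)) :
    PrimOf (∑ i ∈ s, f i) m (fun τ x y => ∑ i ∈ s, G i τ x y) := by
  intro x y τ
  have := HasDerivAt.fun_sum (u := s) (fun i hi => hG i hi x y τ)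
  refine this.congr_deriv ?_
  rw [Finset.sum_apply, Finset.sum_mul]

/-- Vertical vanishing is preserved by upper triangular matrices with positive diagonal. -/
theorem VV.smul_upper {G : ℍ → ℂ} (hG : VV G) {g : GL (Fin 2) ℝ} (h10 : g 1 0 = 0)
    (h00 : 0 < g 0 0) (h11 : 0 < g 1 1) : VV (fun τ => G (g • τ)) := by
  intro x₀
  have hdet : 0 < g.det.val := by
    have : g.det.val = g 0 0 * g 1 1 - g 0 1 * g 1 0 := by
      simp [Matrix.det_fin_two]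
    rw [this, h10]; simp; positivity
  set x₁ : ℝ := (g 0 0 * x₀ + g 0 1) / g 1 1 with hx₁
  set r : ℝ := g 0 0 / g 1 1 with hr
  have hrpos : 0 < r := div_pos h00 h11
  have hlim : Tendsto (fun t : ℝ => G (ofComplex ((x₁ : ℂ) + (r * t : ℝ) * I))) atTop (𝓝 0) :=
    (hG x₁).comp (tendsto_id.const_mul_atTop hrpos)
  refine hlim.congr' ?_
  filter_upwards [eventually_gt_atTop 0] with t ht
  congr 1
  have him : 0 < ((x₀ : ℂ) + t * I).im := by simpa using ht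
  rw [ofComplex_apply_of_im_pos him, ← ofComplex_apply (g • (⟨(x₀ : ℂ) + t * I, him⟩ : ℍ))]
  congr 1
  rw [coe_smul_of_det_pos hdet]
  simp only [num, denom, h10]
  have h11' : ((g 1 1 : ℝ) : ℂ) ≠ 0 := by exact_mod_cast h11.ne'
  rw [hx₁, hr]
  simp only [Complex.ofReal_zero, zero_mul, zero_add]
  rw [eq_div_iff h11']
  push_cast
  field_simp
  ring

theorem VV.mv {G : ℍ → ℂ → ℂ → ℂ} (hG : ∀ x y, VV (fun τ => G τ x y)) {g : GL (Fin 2) ℝ}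
    (h10 : g 1 0 = 0) (h00 : 0 < g 0 0) (h11 : 0 < g 1 1) (x y : ℂ) :
    VV (fun τ => Fermat.Agent.S22Lib.mv g G τ x y) :=
  (hG _ _).smul_upper h10 h00 h11

end Fermat.Agent.S22Lib
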